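import Fermat.Prelude.Def_AlgebraicCurve_BaseChangeGalois
import Fermat.Agent.A2.H129.Kummer

/-!
# Row S33, leaf (S1⁺): the tower lemma, abstract core (helper855)

Prelude language, any `K`, `F`.  `I` a subgroup of `SemilinearAut K F` ("inertia"), `p`, `n`
natural numbers, `C ⊆ F` a class of functions ("constant reductions at both Gauss valuations")
such that

* (C1) `C` is stable under products and inverses and contains the nonzero constants;
* (C2) `g f / f ∈ C` for all `g ∈ I`, `f ≠ 0`                     ("step I", any `f`);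
* (C3) `h ^ (p ^ k) ∈ C → h ∈ C`                                   (root closure).

If every function with trivial divisor is a constant, then every class `y` in the subgroup
generated by the `g • x - x`, `g ∈ I`, `p ^ n • x = 0`, which is killed by `p`, has a Kummer
generator `h ∈ C`: `y = [D]`, `div h = p • D`.

`mem_of_mem_closure_of_torsion` is the form consumed by the S33 board
(`𝒮⁺ := ⋃ₙ I_aug(J[pⁿ]) ∩ J[p] ⊆ 𝒮`).
-/

set_option autoImplicit false

namespace Fermat.Agent.S33.H855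

open AlgebraicCurve Fermat.Agent.A2.H129

variable {K F : Type*} [Field K] [Field F] [Algebra K F]

/-- The axioms (C1)-(C3) on the class `C` of functions with "constant reductions". -/
structure TowerClass (I : Subgroup (SemilinearAut K F)) (p : ℕ) (C : Set F) : Prop where
  mul_mem : ∀ f g : F, f ∈ C → g ∈ C → f * g ∈ C
  inv_mem : ∀ f : F, f ∈ C → f⁻¹ ∈ C
  const_mem : ∀ c : K, c ≠ 0 → algebraMap K F c ∈ C
  tau_mem : ∀ g ∈ I, ∀ f : F, f ≠ 0 → tauSubOne (SemilinearAut.toRingAut g) f ∈ C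
  root_mem : ∀ (h : F) (k : ℕ), h ≠ 0 → h ^ (p ^ k) ∈ C → h ∈ C

/-- `y = [D]` has a Kummer generator of level `m` in `C`. -/
def HasGenIn (C : Set F) (m : ℕ) (y : Pic0 K F) : Prop :=
  ∃ (D : Divisor.degZero (K := K) (F := F)) (u : F), u ≠ 0 ∧ u ∈ C ∧ Pic0.mk D = y ∧
    ∀ v : Place K F, v.ord u = (m : ℤ) * (D : Divisor K F) v

theorem TowerClass.one_mem {I : Subgroup (SemilinearAut K F)} {p : ℕ} {C : Set F}
    (hC : TowerClass I p C) : (1 : F) ∈ C := by
  have := hC.const_mem 1 one_ne_zero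
  simpa using this

/-- The order of `g f / f`. -/
theorem ord_tauSubOne (g : SemilinearAut K F) {f : F} (hf : f ≠ 0) (v : Place K F) :
    v.ord (tauSubOne (SemilinearAut.toRingAut g) f) = (g⁻¹ • v).ord f - v.ord f := by
  have hτf : SemilinearAut.toRingAut g f ≠ 0 := by simpa using hf
  show v.ord (SemilinearAut.toRingAut g f * f⁻¹) = _
  rw [ord_div v hτf hf, ord_smul_eq]

/-- A torsion class has a Kummer generator. -/
theorem exists_gen_of_torsion (m : ℕ) (x : Pic0 K F) (hx : m • x = 0) :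
    ∃ (D : Divisor.degZero (K := K) (F := F)) (f : F), f ≠ 0 ∧ Pic0.mk D = x ∧
      ∀ v : Place K F, v.ord f = (m : ℤ) * (D : Divisor K F) v := by
  obtain ⟨D, rfl⟩ := Pic0.mk_surjective x
  have hprin : ((m • D : Divisor.degZero (K := K) (F := F)) : Divisor K F) ∈
      Divisor.principal (K := K) (F := F) := by
    have h0 : Pic0.mk (m • D) = 0 := hx
    have := (QuotientAddGroup.eq_zero_iff (m • D)).1 h0
    simpa [AddSubgroup.mem_addSubgroupOf] using this
  obtain ⟨f, hf, hfD⟩ := hprin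
  refine ⟨D, f, hf, rfl, fun v => ?_⟩
  rw [← hfD v]
  simp [Finsupp.smul_apply]

/-- Step A: every element of the augmentation subgroup of the `m`-torsion has a Kummer
generator of level `m` in `C`. -/
theorem hasGenIn_of_mem_closure {I : Subgroup (SemilinearAut K F)} {p : ℕ} {C : Set F}
    (hC : TowerClass I p C) (m : ℕ) (y : Pic0 K F)
    (hy : y ∈ AddSubgroup.closure
      {z : Pic0 K F | ∃ g ∈ I, ∃ x : Pic0 K F, m • x = 0 ∧ z = g • x - x}) :
    HasGenIn C m y := by
  induction hy using AddSubgroup.closure_induction with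
  | mem z hz =>
    obtain ⟨g, hg, x, hx, rfl⟩ := hz
    obtain ⟨D, f, hf, rfl, hfD⟩ := exists_gen_of_torsion m x hx
    refine ⟨SemilinearAut.degZeroSMulHom g D - D, tauSubOne (SemilinearAut.toRingAut g) f,
      tauSubOne_ne_zero _ hf, hC.tau_mem g hg f hf, ?_, fun v => ?_⟩
    · rw [SemilinearAut.pic0_smul_mk]
      rfl
    · rw [ord_tauSubOne g hf v, hfD, hfD]
      simp only [AddSubgroupClass.coe_sub, SemilinearAut.coe_degZeroSMulHom,
        Finsupp.sub_apply, SemilinearAut.divisor_smul_apply]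
      ring
  | zero =>
    refine ⟨0, 1, one_ne_zero, hC.one_mem, rfl, fun v => ?_⟩
    simp [Place.ord_one]
  | add a b _ _ ha hb =>
    obtain ⟨D, u, hu, huC, rfl, hD⟩ := ha
    obtain ⟨E, w, hw, hwC, rfl, hE⟩ := hb
    refine ⟨D + E, u * w, mul_ne_zero hu hw, hC.mul_mem u w huC hwC, rfl, fun v => ?_⟩
    rw [v.ord_mul hu hw, hD, hE]
    simp only [AddSubgroup.coe_add, Finsupp.add_apply]
    ring
  | neg a _ ha =>
    obtain ⟨D, u, hu, huC, rfl, hD⟩ := ha
    refine ⟨-D, u⁻¹, inv_ne_zero hu, hC.inv_mem u huC, rfl, fun v => ?_⟩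
    rw [v.ord_inv, hD]
    simp only [AddSubgroup.coe_neg, Finsupp.neg_apply]
    ring

/-- Step B: a class killed by `p` with a Kummer generator of level `p ^ n` (`n ≥ 1`) in `C`
has a Kummer generator of level `p` in `C`. -/
theorem hasGenIn_of_hasGenIn_pow {I : Subgroup (SemilinearAut K F)} {p : ℕ} {C : Set F}
    (hC : TowerClass I p C)
    (hconst : ∀ u : F, u ≠ 0 → (∀ v : Place K F, v.ord u = 0) →
      ∃ c : K, algebraMap K F c = u)
    (n : ℕ) (y : Pic0 K F) (hy : HasGenIn C (p ^ (n + 1)) y) (hpy : p • y = 0) :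
    HasGenIn C p y := by
  obtain ⟨D, u, hu, huC, rfl, hD⟩ := hy
  -- a Kummer generator of level `p`
  have hprin : ((p • D : Divisor.degZero (K := K) (F := F)) : Divisor K F) ∈
      Divisor.principal (K := K) (F := F) := by
    have h0 : Pic0.mk (p • D) = 0 := hpy
    have := (QuotientAddGroup.eq_zero_iff (p • D)).1 h0
    simpa [AddSubgroup.mem_addSubgroupOf] using this
  obtain ⟨h, hh, hhD⟩ := hprin
  have hhD' : ∀ v : Place K F, v.ord h = (p : ℤ) * (D : Divisor K F) v := by
    intro v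
    rw [← hhD v]
    simp [Finsupp.smul_apply]
  -- `u / h ^ (p ^ n)` has trivial divisor
  have hpow : h ^ (p ^ n) ≠ 0 := pow_ne_zero _ hh
  have hq : u * (h ^ (p ^ n))⁻¹ ≠ 0 := mul_ne_zero hu (inv_ne_zero hpow)
  have hord : ∀ v : Place K F, v.ord (u * (h ^ (p ^ n))⁻¹) = 0 := by
    intro v
    rw [ord_div v hu hpow, ord_pow, hD, hhD']
    push_cast
    ring
  obtain ⟨c, hc⟩ := hconst _ hq hord
  have hc0 : c ≠ 0 := by
    rintro rfl
    rw [map_zero] at hc
    exact hq hc.symm
  have hcF : algebraMap K F c ≠ 0 := by simpa using hc0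
  -- hence `h ^ (p ^ n) ∈ C`
  have hmem : h ^ (p ^ n) ∈ C := by
    have e : h ^ (p ^ n) = u * (algebraMap K F c)⁻¹ := by
      rw [hc]
      field_simp
    rw [e]
    exact hC.mul_mem _ _ huC (hC.inv_mem _ (hC.const_mem c hc0))
  exact ⟨D, h, hh, hC.root_mem h n hh hmem, rfl, hhD'⟩

/-- **Tower lemma (S1⁺), abstract form.**  A class killed by `p` in the augmentation subgroup
of the `p ^ (n+1)`-torsion has a Kummer generator of level `p` in `C`. -/
theorem hasGenIn_of_mem_closure_of_torsion {I : Subgroup (SemilinearAut K F)} {p : ℕ}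
    {C : Set F} (hC : TowerClass I p C)
    (hconst : ∀ u : F, u ≠ 0 → (∀ v : Place K F, v.ord u = 0) →
      ∃ c : K, algebraMap K F c = u)
    (n : ℕ) (y : Pic0 K F)
    (hy : y ∈ AddSubgroup.closure
      {z : Pic0 K F | ∃ g ∈ I, ∃ x : Pic0 K F, p ^ (n + 1) • x = 0 ∧ z = g • x - x})
    (hpy : p • y = 0) : HasGenIn C p y :=
  hasGenIn_of_hasGenIn_pow hC hconst n y (hasGenIn_of_mem_closure hC _ y hy) hpy

/-- **Tower lemma (S1⁺), subgroup form.**  If `𝒮` contains every class with a Kummer generator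
of level `p` in `C`, then `I_aug(J[p ^ (n+1)]) ∩ J[p] ⊆ 𝒮`. -/
theorem mem_of_mem_closure_of_torsion {I : Subgroup (SemilinearAut K F)} {p : ℕ}
    {C : Set F} (hC : TowerClass I p C)
    (hconst : ∀ u : F, u ≠ 0 → (∀ v : Place K F, v.ord u = 0) →
      ∃ c : K, algebraMap K F c = u)
    (𝒮 : AddSubgroup (Pic0 K F))
    (h𝒮 : ∀ (D : Divisor.degZero (K := K) (F := F)) (h : F), h ≠ 0 → h ∈ C →
      (∀ v : Place K F, v.ord h = (p : ℤ) * (D : Divisor K F) v) → Pic0.mk D ∈ 𝒮)
    (n : ℕ) (y : Pic0 K F)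
    (hy : y ∈ AddSubgroup.closure
      {z : Pic0 K F | ∃ g ∈ I, ∃ x : Pic0 K F, p ^ (n + 1) • x = 0 ∧ z = g • x - x})
    (hpy : p • y = 0) : y ∈ 𝒮 := by
  obtain ⟨D, h, hh, hhC, rfl, hD⟩ := hasGenIn_of_mem_closure_of_torsion hC hconst n y hy hpy
  exact h𝒮 D h hh hhC hD

end Fermat.Agent.S33.H855
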