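import Fermat.Agent.S33.H855.TowerCore
import Fermat.Agent.Lib.FF398.Hecke
import Fermat.Agent.Lib.RR.H383.FF1OfFinite

/-!
# Row S33, leaf (S1⁺): the two modular inputs of the tower lemma (helper855)

* `inertiaAut A N` : the image of the inertia group of `A` in the semilinear automorphisms of
  `ℚ̄(X₀(N))`;
* `exists_const_of_ord_eq_zero` : a function without zeros and poles on `X₀(N)` is constant.
-/

set_option autoImplicit false
set_option linter.unusedSectionVars false

noncomputable section

namespace Fermat.Agent.S33.H855

open ModularCurve AlgebraicCurve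

local notation "Q̄" => AlgebraicClosure ℚ

/-- The image of the inertia group of `A` in the semilinear automorphisms of `ℚ̄(X₀(N))`. -/
def inertiaAut (A : ValuationSubring Q̄) (N : ℕ) [NeZero N] :
    Subgroup (SemilinearAut Q̄ ↥(modularFunctionFieldBar N)) :=
  (A.inertiaSubgroupIn ℚ).map (arithmeticGalois (modularFunctionFieldFull N))

/-- A function without zeros and poles on `X₀(N)` is constant. -/
theorem exists_const_of_ord_eq_zero (N : ℕ) [NeZero N] (u : ↥(modularFunctionFieldBar N))
    (hu : ∀ v : Place Q̄ ↥(modularFunctionFieldBar N), v.ord u = 0) :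
    ∃ c : Q̄, algebraMap Q̄ ↥(modularFunctionFieldBar N) c = u :=
  Fermat.Agent.Lib.RR.H383.eq_algebraMap_of_forall_ord_eq_zero
    (Fermat.Agent.Lib.FF398.transcendental_jF N) hu

end Fermat.Agent.S33.H855
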