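import Fermat.Agent.A2.H129.GaussTwice

/-!
# Row S33, leaf (S1⁺): the class of functions with constant reductions (helper855)

Pure valuation theory on top of helper129's `GaussTwice` (Mathlib only).

`F` a field, `Kc` the subfield of constants, `V` a valuation subring of `F` (a Gauss valuation).
`ConstOne Kc V f` : `f = c · g` with a nonzero constant `c` and `g ∈ 1 + 𝔪_V`
("the reduction of `f` along `V` is a constant").

* `ConstOne.mul`, `ConstOne.inv`, `constOne_of_mem` : (C1);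
* `constOne_tauSubOne` : (C2), from `exists_const_once`;
* `constOne_of_pow` : (C3) root closure: residue characteristic `p` and `Kc` closed under
  `p`-th roots.
-/

set_option autoImplicit false

namespace Fermat.Agent.S33.H855

open Fermat.Agent.A2.H129

variable {F : Type*} [Field F]

/-- `f` is a nonzero constant times an element of `1 + 𝔪_V`. -/
def ConstOne (Kc : Subfield F) (V : ValuationSubring F) (f : F) : Prop :=
  ∃ c ∈ Kc, c ≠ 0 ∧ OneAddNonunits V (f * c⁻¹)

section basic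

variable {Kc : Subfield F} {V : ValuationSubring F}

theorem ConstOne.ne_zero {f : F} (hf : ConstOne Kc V f) : f ≠ 0 := by
  obtain ⟨c, -, -, h⟩ := hf
  rintro rfl
  have := h.isUnitOf.ne_zero
  simp at this

theorem constOne_of_mem {c : F} (hc : c ∈ Kc) (hc0 : c ≠ 0) : ConstOne Kc V c :=
  ⟨c, hc, hc0, by rw [mul_inv_cancel₀ hc0]; exact OneAddNonunits.one⟩

theorem ConstOne.mul {f g : F} (hf : ConstOne Kc V f) (hg : ConstOne Kc V g) :
    ConstOne Kc V (f * g) := by
  obtain ⟨c, hc, hc0, h1⟩ := hf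
  obtain ⟨d, hd, hd0, h2⟩ := hg
  refine ⟨c * d, Kc.mul_mem hc hd, mul_ne_zero hc0 hd0, ?_⟩
  have e : f * g * (c * d)⁻¹ = f * c⁻¹ * (g * d⁻¹) := by
    rw [mul_inv]; ring
  rw [e]
  exact h1.mul h2

theorem ConstOne.inv {f : F} (hf : ConstOne Kc V f) : ConstOne Kc V f⁻¹ := by
  obtain ⟨c, hc, hc0, h1⟩ := hf
  refine ⟨c⁻¹, Kc.inv_mem hc, inv_ne_zero hc0, ?_⟩
  have e : f⁻¹ * c⁻¹⁻¹ = (f * c⁻¹)⁻¹ := by
    rw [mul_inv]
  rw [e]
  exact h1.inv

/-- (C2) "step I": for every `f ≠ 0`, `τ f / f` has constant reduction. -/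
theorem constOne_tauSubOne {τ : F ≃+* F} (hK : ∀ c ∈ Kc, τ c ∈ Kc)
    (hV : HasConstValues Kc V) (hτ : InInertia V τ) {f : F} (hf : f ≠ 0) :
    ConstOne Kc V (tauSubOne τ f) :=
  exists_const_once hK hV hτ hf

end basic

section root

variable {V : ValuationSubring F}

/-- In residue characteristic `p`: `x ^ (p ^ k) ∈ 1 + 𝔪_V` implies `x ∈ 1 + 𝔪_V`. -/
theorem oneAddNonunits_of_pow {p : ℕ} (hp : p.Prime) (hpV : V.valuation (p : F) < 1) (k : ℕ)
    {x : F} (hx : OneAddNonunits V (x ^ p ^ k)) : OneAddNonunits V x := by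
  -- `x` is a unit of `V`
  have hpk : p ^ k ≠ 0 := pow_ne_zero _ hp.ne_zero
  have hx1 : V.valuation x = 1 := by
    have h := hx.isUnitOf
    unfold IsUnitOf at h
    rw [map_pow] at h
    exact (pow_eq_one_iff.mp h).resolve_right hpk
  have hxV : x ∈ V := (V.valuation_le_one_iff x).mp (le_of_eq hx1)
  -- the residue field has characteristic `p`
  have hpm : ((p : ℕ) : V) ∈ IsLocalRing.maximalIdeal V := by
    rw [ValuationSubring.valuation_lt_one_iff]
    simpa using hpV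
  have hp0 : ((p : ℕ) : IsLocalRing.ResidueField V) = 0 := by
    have := (IsLocalRing.residue_eq_zero_iff ((p : ℕ) : V)).mpr hpm
    simpa using this
  have : CharP (IsLocalRing.ResidueField V) p := (CharP.charP_iff_prime_eq_zero hp).mpr hp0
  have : Fact p.Prime := ⟨hp⟩
  -- the residue of `x ^ (p ^ k)` is `1`
  set xV : V := ⟨x, hxV⟩ with hxVdef
  have h1 : xV ^ p ^ k - 1 ∈ IsLocalRing.maximalIdeal V := by
    rw [ValuationSubring.valuation_lt_one_iff]
    exact hx
  have h2 : IsLocalRing.residue V xV ^ p ^ k = 1 := by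
    have := (IsLocalRing.residue_eq_zero_iff (xV ^ p ^ k - 1)).mpr h1
    rw [map_sub, map_pow, map_one, sub_eq_zero] at this
    exact this
  have h3 : (IsLocalRing.residue V xV - 1) ^ p ^ k = 0 := by
    rw [sub_pow_char_pow, h2, one_pow, sub_self]
  have h4 : IsLocalRing.residue V (xV - 1) = 0 := by
    rw [map_sub, map_one]
    exact pow_eq_zero_iff hpk |>.mp h3
  have h5 := (IsLocalRing.residue_eq_zero_iff (xV - 1)).mp h4
  rw [ValuationSubring.valuation_lt_one_iff] at h5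
  exact h5

/-- iterated `p`-th roots in `Kc` -/
theorem exists_pow_pow_eq {Kc : Subfield F} {p : ℕ}
    (hroot : ∀ c ∈ Kc, ∃ d ∈ Kc, d ^ p = c) (k : ℕ) :
    ∀ c ∈ Kc, ∃ d ∈ Kc, d ^ p ^ k = c := by
  induction k with
  | zero => intro c hc; exact ⟨c, hc, by simp⟩
  | succ k ih =>
    intro c hc
    obtain ⟨d, hd, hdc⟩ := hroot c hc
    obtain ⟨e, he, hed⟩ := ih d hd
    refine ⟨e, he, ?_⟩
    rw [pow_succ, pow_mul, hed, hdc]

/-- (C3) root closure of `ConstOne`. -/
theorem constOne_of_pow {Kc : Subfield F} {p : ℕ} (hp : p.Prime)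
    (hpV : V.valuation (p : F) < 1) (hroot : ∀ c ∈ Kc, ∃ d ∈ Kc, d ^ p = c) (k : ℕ)
    {h : F} (hh : ConstOne Kc V (h ^ p ^ k)) : ConstOne Kc V h := by
  obtain ⟨c, hc, hc0, h1⟩ := hh
  obtain ⟨d, hd, hdc⟩ := exists_pow_pow_eq hroot k c hc
  have hd0 : d ≠ 0 := by
    rintro rfl
    rw [zero_pow (pow_ne_zero _ hp.ne_zero)] at hdc
    exact hc0 hdc.symm
  refine ⟨d, hd, hd0, oneAddNonunits_of_pow hp hpV k ?_⟩
  have e : (h * d⁻¹) ^ p ^ k = h ^ p ^ k * c⁻¹ := by
    rw [mul_pow, inv_pow, hdc]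
  rw [e]
  exact h1

end root

end Fermat.Agent.S33.H855
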