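import Fermat.Agent.S33.H855.TowerBase
import Fermat.Agent.S33.H855.TowerGauss
import Fermat.Agent.A2.H553.K2Both

/-!
# Row S33, leaf (S1⁺): the tower lemma for `J₀(N)` (helper855), UNCONDITIONAL

`A` a valuation subring of `ℚ̄` over the prime `p`, `I = A.inertiaSubgroupIn ℚ`,
`V∞ = VinfModular`, `V₀ = VzeroModular` the two Gauss valuations of `ℚ̄(X₀(N))` over `A`
(helper553, cell A2; any `N`, any `p`).

* `constRed A hp hA N` : the functions `f` which are (constant) × (element of `1 + 𝔪`) along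
  `V∞` and along `V₀` ("constant reductions on both components");
* `splitMin A hp hA N` : the subgroup of `J₀(N)` of the classes `[D]` having a Kummer generator
  `h ∈ constRed`, `div h = p • D`;
* `aug_le_splitMin` : **(S1⁺)** for every `n`, every class killed by `p` in the subgroup generated
  by the `σ x - x`, `σ ∈ I`, `p ^ (n+1) • x = 0`, lies in `splitMin`.
  (`n = 0` is (S1) of the RIBET wall-`p` board.)

Every subgroup `𝒮` containing `splitMin` therefore satisfies (S1⁺); (S2) for `𝒮` implies (S2) for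
`splitMin`.
-/

set_option autoImplicit false
set_option linter.unusedSectionVars false

noncomputable section

namespace Fermat.Agent.S33.H855

open ModularCurve AlgebraicCurve Fermat.Agent.A2.H129 Fermat.Agent.A2.H553

local notation "Q̄" => AlgebraicClosure ℚ

/-- `v x < 1 ↔ x⁻¹ ∉ V` for `x ≠ 0`. -/
theorem valuation_lt_one_iff_inv_notMem {F : Type*} [Field F] (V : ValuationSubring F) {x : F}
    (hx : x ≠ 0) : V.valuation x < 1 ↔ x⁻¹ ∉ V := by
  rw [← ValuationSubring.valuation_le_one_iff, map_inv₀, not_le]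
  have hv : 0 < V.valuation x := zero_lt_iff.mpr ((Valuation.ne_zero_iff _).mpr hx)
  rw [one_lt_inv₀ hv]

section Modular

variable (A : ValuationSubring Q̄) {p : ℕ} (hp : p ≠ 0) (hA : A.LiesOverPrime p)
  (N : ℕ) [NeZero N]

/-- The functions with constant reductions along `V∞` and `V₀`. -/
def constRed : Set ↥(modularFunctionFieldBar N) :=
  {f | ConstOne (constField (modularFunctionFieldFull N)) (VinfModular A hp hA N) f ∧
       ConstOne (constField (modularFunctionFieldFull N)) (VzeroModular A hp hA N) f}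

theorem natCast_eq_algebraMap (m : ℕ) :
    ((m : ℕ) : ↥(modularFunctionFieldBar N)) =
      algebraMap Q̄ ↥(modularFunctionFieldBar N) (m : Q̄) := by
  rw [map_natCast]

include hp hA in
theorem inv_natCast_notMem : ((p : ℕ) : Q̄)⁻¹ ∉ A := by
  have hp0 : ((p : ℕ) : Q̄) ≠ 0 := by exact_mod_cast hp
  exact (valuation_lt_one_iff_inv_notMem A hp0).mp ((ValuationSubring.mem_nonunits_iff A).mp hA)

theorem valuation_Vinf_natCast_lt_one :
    (VinfModular A hp hA N).valuation ((p : ℕ) : ↥(modularFunctionFieldBar N)) < 1 := by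
  have hp0 : ((p : ℕ) : ↥(modularFunctionFieldBar N)) ≠ 0 := by exact_mod_cast hp
  rw [valuation_lt_one_iff_inv_notMem _ hp0, natCast_eq_algebraMap, ← map_inv₀]
  intro h
  exact inv_natCast_notMem A hp hA ((algebraMap_mem_Vinf_iff _).mp h)

theorem valuation_Vzero_natCast_lt_one :
    (VzeroModular A hp hA N).valuation ((p : ℕ) : ↥(modularFunctionFieldBar N)) < 1 := by
  have hp0 : ((p : ℕ) : ↥(modularFunctionFieldBar N)) ≠ 0 := by exact_mod_cast hp
  rw [valuation_lt_one_iff_inv_notMem _ hp0, natCast_eq_algebraMap, ← map_inv₀]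
  intro h
  exact inv_natCast_notMem A hp hA ((algebraMap_mem_Vzero_iff A hp hA N).mp h)

include hp in
/-- `ℚ̄` is closed under `p`-th roots. -/
theorem constField_root :
    ∀ c ∈ constField (modularFunctionFieldFull N),
      ∃ d ∈ constField (modularFunctionFieldFull N), d ^ p = c := by
  rintro _ ⟨c, rfl⟩
  obtain ⟨d, hd⟩ := IsAlgClosed.exists_pow_nat_eq c (Nat.pos_of_ne_zero hp)
  exact ⟨algebraMap Q̄ _ d, ⟨d, rfl⟩, by rw [← map_pow, hd]⟩

/-- (C1)-(C3) for `constRed`. -/
theorem towerClass_constRed (hpp : p.Prime) :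
    TowerClass (inertiaAut A N) p (constRed A hp hA N) where
  mul_mem f g hf hg := ⟨hf.1.mul hg.1, hf.2.mul hg.2⟩
  inv_mem f hf := ⟨hf.1.inv, hf.2.inv⟩
  const_mem c hc := by
    have h0 : algebraMap Q̄ ↥(modularFunctionFieldBar N) c ≠ 0 := by simpa using hc
    exact ⟨constOne_of_mem ⟨c, rfl⟩ h0, constOne_of_mem ⟨c, rfl⟩ h0⟩
  tau_mem g hg f hf := by
    obtain ⟨σ, hσ, rfl⟩ := hg
    obtain ⟨h1, -, h3, h4⟩ := k2_Vinf_modular A hp hA N hσ
    obtain ⟨g1, -, g3⟩ := k2_Vzero_modular A hp hA N hσ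
    exact ⟨constOne_tauSubOne h4 h1 h3 hf, constOne_tauSubOne h4 g1 g3 hf⟩
  root_mem h k _ hh :=
    ⟨constOne_of_pow hpp (valuation_Vinf_natCast_lt_one A hp hA N) (constField_root hp N) k hh.1,
      constOne_of_pow hpp (valuation_Vzero_natCast_lt_one A hp hA N) (constField_root hp N) k
        hh.2⟩

/-- The classes with a Kummer generator of level `p` with constant reductions along `V∞`, `V₀`. -/
def splitMin : AddSubgroup (JZero N) where
  carrier := {y | HasGenIn (constRed A hp hA N) p y}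
  zero_mem' := by
    refine ⟨0, 1, one_ne_zero, ?_, rfl, fun v => ?_⟩
    · have h1 : (1 : ↥(modularFunctionFieldBar N)) ∈ constField (modularFunctionFieldFull N) :=
        ⟨1, map_one _⟩
      exact ⟨constOne_of_mem h1 one_ne_zero, constOne_of_mem h1 one_ne_zero⟩
    · simp [Place.ord_one]
  add_mem' := by
    rintro _ _ ⟨D, u, hu, huC, rfl, hD⟩ ⟨E, w, hw, hwC, rfl, hE⟩
    refine ⟨D + E, u * w, mul_ne_zero hu hw, ⟨huC.1.mul hwC.1, huC.2.mul hwC.2⟩, rfl,
      fun v => ?_⟩
    rw [v.ord_mul hu hw, hD, hE]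
    simp only [AddSubgroup.coe_add, Finsupp.add_apply]
    ring
  neg_mem' := by
    rintro _ ⟨D, u, hu, huC, rfl, hD⟩
    refine ⟨-D, u⁻¹, inv_ne_zero hu, ⟨huC.1.inv, huC.2.inv⟩, rfl, fun v => ?_⟩
    rw [v.ord_inv, hD]
    simp only [AddSubgroup.coe_neg, Finsupp.neg_apply]
    ring

theorem mem_splitMin {y : JZero N} :
    y ∈ splitMin A hp hA N ↔
      ∃ (D : Divisor.degZero (K := Q̄) (F := ↥(modularFunctionFieldBar N)))
        (h : ↥(modularFunctionFieldBar N)), h ≠ 0 ∧ h ∈ constRed A hp hA N ∧ Pic0.mk D = y ∧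
        ∀ v : Place Q̄ ↥(modularFunctionFieldBar N), v.ord h = (p : ℤ) * (D : Divisor _ _) v :=
  Iff.rfl

/-- **(S1⁺).**  For every `n`: a class killed by `p` in the subgroup generated by the
`σ x - x`, `σ` in the inertia group of `A`, `p ^ (n+1) • x = 0`, lies in `splitMin`. -/
theorem aug_le_splitMin (hpp : p.Prime) (n : ℕ) (y : JZero N)
    (hy : y ∈ AddSubgroup.closure
      {z : JZero N | ∃ σ ∈ A.inertiaSubgroupIn ℚ, ∃ x : JZero N,
        p ^ (n + 1) • x = 0 ∧ z = σ • x - x})
    (hpy : p • y = 0) : y ∈ splitMin A hp hA N := by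
  refine hasGenIn_of_mem_closure_of_torsion (towerClass_constRed A hp hA N hpp)
    (fun u _ hu => exists_const_of_ord_eq_zero N u hu) n y ?_ hpy
  refine AddSubgroup.closure_mono ?_ hy
  rintro _ ⟨σ, hσ, x, hx, rfl⟩
  exact ⟨arithmeticGalois (modularFunctionFieldFull N) σ, ⟨σ, hσ, rfl⟩, x, hx, rfl⟩

/-- **(S1)** of the wall-`p` board, for `splitMin`. -/
theorem smul_sub_mem_splitMin (hpp : p.Prime) (x : JZero N) (hx : p • x = 0)
    (σ : Q̄ ≃ₐ[ℚ] Q̄) (hσ : σ ∈ A.inertiaSubgroupIn ℚ) :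
    σ • x - x ∈ splitMin A hp hA N := by
  refine aug_le_splitMin A hp hA N hpp 0 _
    (AddSubgroup.subset_closure ⟨σ, hσ, x, by simpa using hx, rfl⟩) ?_
  have h := map_nsmul (DistribSMul.toAddMonoidHom (JZero N) σ) p x
  rw [hx, map_zero] at h
  have h' : p • (σ • x) = 0 := h.symm
  rw [nsmul_sub, h', hx, sub_zero]

end Modular

end Fermat.Agent.S33.H855
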