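import Fermat.Agent.S33.H855.TowerBase
import Fermat.Agent.S33.Spec2
import Fermat.Agent.Ribet.H884.SlopeS1
import Fermat.Agent.Ribet.H884.SlopeClosed
import Fermat.Agent.S18.H905.Residue

/-!
# Row S33, leaf NEW: (S1⁺) for the official split part and the assembly of `OrdFilStatement`
# (helper855)

`𝒮 = Ribet.H884.splitPart p M' A` is the split part of the RIBET wall-`p` board
(`Ribet/H884/SlopeSpec.lean`): the classes with a Kummer generator whose reductions on both
components are `p`-divisible and `p`-th powers.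

* `oneRed N A` : the functions whose reductions on both components are `1`
  (`IsRedInf N A f 1 ∧ IsRedZero N A f 1`);
* `isRedInf_one_of_pow` : root closure, `IsRedInf (h ^ (p ^ k)) 1 → IsRedInf h 1`
  (Gauss lemma + the residue field of `A` is perfect of characteristic `p`);
* `towerClass_oneRed` : (C1)-(C3) of `TowerCore` for `oneRed`;
* `aug_le_splitPart` : **(S1⁺)**, `I_aug(J[p ^ (n+1)]) ∩ J[p] ⊆ splitPart`, every `n`;
* `inSPlus_mem_splitPart` : the same in the vocabulary of `S33/Spec2.lean`;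
* `ordFil_of_s2 : Ribet.H884.S2Statement → S33.OrdFilStatement` : **NEW** from (S2) alone
  (W-DEG = `Ribet.H801.alphaL`, `betaL`);
* `OrdFilFor p M'`, `ordFilStatement_iff`, `ordFilFor_of_s2For` : the same at one pair `(p, M')`
  (for the levels at which (S2) is available).
-/

set_option autoImplicit false
set_option synthInstance.maxHeartbeats 400000
set_option maxHeartbeats 1000000
set_option linter.unusedSectionVars false
set_option linter.style.haveILetI false

noncomputable section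

namespace Fermat.Agent.S33.H855

open AlgebraicCurve ModularCurve HahnSeries
open Fermat.Agent.S24 Fermat.Agent.A2.H708 Fermat.Agent.A2.H528 Fermat.Agent.A2.H129
open Fermat.Agent.Ribet.H884

section Gauss

variable {A : ValuationSubring Kbar}

/-- Gauss lemma: if `c · (primitive) = primitive` then `c` is a unit of `A`. -/
theorem exists_unit_of_cst_mul_prim {c : Kbar} {U U' : LaurentSeries A} (hc : c ≠ 0)
    (hU : red A U ≠ 0) (hU' : red A U' ≠ 0) (h : cst c * incl A U = incl A U') :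
    ∃ e : Aˣ, ((e : A) : Kbar) = c := by
  have h1 : c ∈ A := mem_of_cst_mul_prim A hU h
  have h2 : c⁻¹ ∈ A := by
    refine mem_of_cst_mul_prim A hU' (U' := U) ?_
    rw [← h, ← mul_assoc, cst_inv_mul_cst hc, one_mul]
  exact ⟨⟨⟨c, h1⟩, ⟨c⁻¹, h2⟩, Subtype.ext (mul_inv_cancel₀ hc), Subtype.ext (inv_mul_cancel₀ hc)⟩,
    rfl⟩

end Gauss

section Root

variable {N : ℕ} [NeZero N] {A : ValuationSubring Kbar} {p : ℕ}

/-- Root closure, one step: `IsRedInf (h ^ p) 1 → IsRedInf h 1`. -/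
theorem isRedInf_one_of_pow_prime (hpp : p.Prime) (hA : A.LiesOverPrime p) {h : FF N}
    (hh : h ≠ 0) (H : IsRedInf N A (h ^ p) 1) : IsRedInf N A h 1 := by
  have hh' : (h : LaurentSeries Kbar) ≠ 0 := fun e => hh (Subtype.ext e)
  obtain ⟨d, V₁, V₂, hd, hV₁, hV₂, -, -, heV⟩ :=
    exists_normal_form (A := A) (intGen_full N)
      (attainsMax_Qbar hpp.ne_zero hA (modularFunctionFieldFull N)) h.2 hh'
  obtain ⟨c, U₁, U₂, hc, hU₁, hU₂, heU, hr⟩ := H
  rw [one_mul] at hr
  have hcoe : ((h ^ p : FF N) : LaurentSeries Kbar) = (h : LaurentSeries Kbar) ^ p := rfl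
  have hdp : d ^ p ≠ 0 := pow_ne_zero _ hd
  have hV : (h : LaurentSeries Kbar) ^ p * incl A V₂ ^ p = cst (d ^ p) * incl A V₁ ^ p := by
    rw [← mul_pow, heV, mul_pow, cst, cst, map_pow]
  have key : cst (c * (d ^ p)⁻¹) * incl A (U₁ * V₂ ^ p) = incl A (V₁ ^ p * U₂) := by
    rw [map_mul, map_mul, map_pow, map_pow, cst_mul]
    calc cst c * cst (d ^ p)⁻¹ * (incl A U₁ * incl A V₂ ^ p)
        = cst (d ^ p)⁻¹ * ((cst c * incl A U₁) * incl A V₂ ^ p) := by ring
      _ = cst (d ^ p)⁻¹ * (((h : LaurentSeries Kbar) ^ p * incl A U₂) * incl A V₂ ^ p) := by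
          rw [← heU, hcoe]
      _ = cst (d ^ p)⁻¹ * (((h : LaurentSeries Kbar) ^ p * incl A V₂ ^ p) * incl A U₂) := by
          ring
      _ = (cst (d ^ p)⁻¹ * cst (d ^ p)) * (incl A V₁ ^ p * incl A U₂) := by rw [hV]; ring
      _ = incl A V₁ ^ p * incl A U₂ := by rw [cst_inv_mul_cst hdp, one_mul]
  have hprim1 : red A (U₁ * V₂ ^ p) ≠ 0 := by
    rw [map_mul, map_pow]; exact mul_ne_zero hU₁ (pow_ne_zero _ hV₂)
  have hprim2 : red A (V₁ ^ p * U₂) ≠ 0 := by
    rw [map_mul, map_pow]; exact mul_ne_zero (pow_ne_zero _ hV₁) hU₂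
  obtain ⟨e, he⟩ := exists_unit_of_cst_mul_prim (mul_ne_zero hc (inv_ne_zero hdp)) hprim1 hprim2 key
  -- the identity over `A` and its reduction
  have keyA : cstA A (e : A) * (U₁ * V₂ ^ p) = V₁ ^ p * U₂ := by
    apply incl_injective A
    rw [map_mul, incl_cstA, he]
    exact key
  have keyk : HahnSeries.C (IsLocalRing.residue A (e : A)) * red A V₂ ^ p = red A V₁ ^ p := by
    have h1 := congrArg (red A) keyA
    rw [map_mul, map_mul, map_mul, map_pow, map_pow, red_cstA, ← hr] at h1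
    have h2 : (HahnSeries.single 0 (IsLocalRing.residue A (e : A)) * red A V₂ ^ p) * red A U₂ =
        red A V₁ ^ p * red A U₂ := by
      rw [← h1]; ring
    exact mul_right_cancel₀ hU₂ h2
  -- `p`-th root of the constant
  haveI : IsAlgClosed (kA A) := Fermat.Agent.S18.H905.isAlgClosed_residueField A
  haveI : CharP (kA A) p := by
    rw [CharP.charP_iff_prime_eq_zero hpp]
    exact Fermat.Agent.S18.H905.natCast_residue_eq_zero A hA
  haveI : Fact p.Prime := ⟨hpp⟩
  haveI : CharP (LaurentSeries (kA A)) p :=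
    charP_of_injective_algebraMap (algebraMap (kA A) (LaurentSeries (kA A))).injective p
  obtain ⟨ε, hε⟩ := IsAlgClosed.exists_pow_nat_eq (IsLocalRing.residue A (e : A)) hpp.pos
  have hroot : red A V₁ = HahnSeries.C ε * red A V₂ := by
    apply frobenius_inj (LaurentSeries (kA A)) p
    show red A V₁ ^ p = (HahnSeries.C ε * red A V₂) ^ p
    have h1 : (HahnSeries.C ε : LaurentSeries (kA A)) ^ p =
        (HahnSeries.C (IsLocalRing.residue A (e : A)) : LaurentSeries (kA A)) := by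
      rw [← hε, map_pow]
    rw [mul_pow, h1, keyk]
  obtain ⟨e', he'⟩ := IsLocalRing.residue_surjective (R := A) ε
  have hε0 : ε ≠ 0 := by
    rintro rfl
    rw [zero_pow hpp.ne_zero] at hε
    have hu : IsUnit (IsLocalRing.residue A (e : A)) := e.isUnit.map _
    exact hu.ne_zero hε.symm
  have he'u : IsUnit e' := by
    rw [← IsLocalRing.notMem_maximalIdeal, ← IsLocalRing.residue_eq_zero_iff, he']
    exact hε0
  obtain ⟨u, rfl⟩ := he'u
  have hu0 : ((u : A) : Kbar) ≠ 0 := by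
    intro h0
    exact u.ne_zero (Subtype.ext h0)
  have huinv : ((u : A) : Kbar) * (((u⁻¹ : Aˣ) : A) : Kbar) = 1 := by
    exact_mod_cast u.mul_inv
  refine ⟨d * ((u : A) : Kbar), cstA A ((u⁻¹ : Aˣ) : A) * V₁, V₂, mul_ne_zero hd hu0, ?_, hV₂,
    ?_, ?_⟩
  · rw [map_mul, red_cstA, hroot, he'.symm]
    have h1 : HahnSeries.single 0 (IsLocalRing.residue A ((u⁻¹ : Aˣ) : A)) *
        (HahnSeries.C (IsLocalRing.residue A (u : A)) * red A V₂) = red A V₂ := by
      rw [← mul_assoc, ← HahnSeries.C_apply, ← map_mul, ← map_mul, u.inv_mul, map_one, map_one,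
        one_mul]
    rw [h1]
    exact hV₂
  · rw [heV, map_mul, incl_cstA, cst_mul, mul_assoc, ← mul_assoc (cst ((u : A) : Kbar)),
      ← cst_mul, huinv, cst_one, one_mul]
  · rw [one_mul, map_mul, red_cstA, hroot, he'.symm, ← mul_assoc, ← HahnSeries.C_apply,
      ← map_mul, ← map_mul, u.inv_mul, map_one, map_one, one_mul]

/-- Root closure: `IsRedInf (h ^ (p ^ k)) 1 → IsRedInf h 1`. -/
theorem isRedInf_one_of_pow (hpp : p.Prime) (hA : A.LiesOverPrime p) (k : ℕ) {h : FF N}
    (hh : h ≠ 0) (H : IsRedInf N A (h ^ (p ^ k)) 1) : IsRedInf N A h 1 := by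
  induction k with
  | zero => simpa using H
  | succ k ih =>
    apply ih
    apply isRedInf_one_of_pow_prime hpp hA (pow_ne_zero _ hh)
    rwa [← pow_mul, ← pow_succ]

/-- Root closure on the `0`-component. -/
theorem isRedZero_one_of_pow (hpp : p.Prime) (hA : A.LiesOverPrime p) (k : ℕ) {h : FF N}
    (hh : h ≠ 0) (H : IsRedZero N A (h ^ (p ^ k)) 1) : IsRedZero N A h 1 := by
  have hw : wF N h ≠ 0 := fun e => hh ((map_eq_zero_iff _ (wF N).injective).mp e)
  unfold IsRedZero at H ⊢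
  rw [map_pow] at H
  exact isRedInf_one_of_pow hpp hA k hw H

end Root

section Class

variable (N : ℕ) [NeZero N] (A : ValuationSubring Kbar) {p : ℕ}

/-- The functions whose reductions on both components are `1`. -/
def oneRed : Set (FF N) := {f | IsRedInf N A f 1 ∧ IsRedZero N A f 1}

theorem isRedInf_algebraMap {c : Kbar} (hc : c ≠ 0) :
    IsRedInf N A (algebraMap Kbar (FF N) c) 1 := by
  refine ⟨c, 1, 1, hc, ?_, ?_, ?_, ?_⟩
  · rw [map_one]; exact one_ne_zero
  · rw [map_one]; exact one_ne_zero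
  · rw [map_one, mul_one, mul_one]
    rfl
  · rw [map_one, mul_one]

theorem isRedZero_algebraMap {c : Kbar} (hc : c ≠ 0) :
    IsRedZero N A (algebraMap Kbar (FF N) c) 1 := by
  unfold IsRedZero
  rw [AlgEquiv.commutes]
  exact isRedInf_algebraMap N A hc

/-- (C1)-(C3) for `oneRed`. -/
theorem towerClass_oneRed (hpp : p.Prime) (hA : A.LiesOverPrime p) :
    TowerClass (inertiaAut A N) p (oneRed N A) where
  mul_mem f g hf hg := by
    refine ⟨?_, ?_⟩
    · have := hf.1.mul hg.1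
      rwa [one_mul] at this
    · have := hf.2.mul hg.2
      rwa [one_mul] at this
  inv_mem f hf := by
    refine ⟨?_, ?_⟩
    · have := hf.1.inv
      rwa [inv_one] at this
    · have := hf.2.inv
      rwa [inv_one] at this
  const_mem c hc := ⟨isRedInf_algebraMap N A hc, isRedZero_algebraMap N A hc⟩
  tau_mem g hg f hf := by
    obtain ⟨σ, hσ, rfl⟩ := hg
    exact ⟨isRedInf_galSubOne hpp.ne_zero hA hσ hf, isRedZero_galSubOne hpp.ne_zero hA hσ hf⟩
  root_mem h k hh H :=
    ⟨isRedInf_one_of_pow hpp hA k hh H.1, isRedZero_one_of_pow hpp hA k hh H.2⟩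

end Class

section Split

variable (p M' : ℕ) [NeZero (p * M')] (A : ValuationSubring Kbar)

/-- **(S1⁺)** for the official split part: for every `n`, a class killed by `p` in the subgroup
generated by the `σ x - x`, `σ` in the inertia group of `A`, `p ^ (n+1) • x = 0`, lies in
`splitPart p M' A`. -/
theorem aug_le_splitPart (hpp : p.Prime) (hA : A.LiesOverPrime p) (n : ℕ)
    (y : JZero (p * M'))
    (hy : y ∈ AddSubgroup.closure
      {z : JZero (p * M') | ∃ σ ∈ A.inertiaSubgroupIn ℚ, ∃ x : JZero (p * M'),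
        p ^ (n + 1) • x = 0 ∧ z = σ • x - x})
    (hpy : p • y = 0) : y ∈ splitPart p M' A := by
  have hgen : HasGenIn (oneRed (p * M') A) p y := by
    refine hasGenIn_of_mem_closure_of_torsion (towerClass_oneRed (p * M') A hpp hA)
      (fun u _ hu => exists_const_of_ord_eq_zero (p * M') u hu) n y ?_ hpy
    refine AddSubgroup.closure_mono ?_ hy
    rintro _ ⟨σ, hσ, x, hx, rfl⟩
    exact ⟨arithmeticGalois (modularFunctionFieldFull (p * M')) σ, ⟨σ, hσ, rfl⟩, x, hx, rfl⟩
  obtain ⟨D, u, hu, huC, hD, hord⟩ := hgen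
  apply AddSubgroup.subset_closure
  exact ⟨u, ⟨hu, D, hD, hord⟩, 1, 1, huC.1, huC.2, pDivSeries_one p M', pDivSeries_one p M',
    splitSeries_one p, splitSeries_one p⟩

/-- **(S1⁺)** in the vocabulary of `S33/Spec2.lean`: `𝒮⁺ ⊆ splitPart`. -/
theorem inSPlus_mem_splitPart (hpp : p.Prime) (hA : A.LiesOverPrime p) (x : JZero (p * M'))
    (hx : Fermat.Agent.S33.InSPlus (A.inertiaSubgroupIn ℚ) p x) : x ∈ splitPart p M' A := by
  obtain ⟨hpx, n, hn⟩ := hx
  refine aug_le_splitPart p M' A hpp hA n x ?_ hpx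
  refine AddSubgroup.closure_mono ?_ hn
  rintro _ ⟨σ, hσ, y, hy, rfl⟩
  refine ⟨σ, hσ, y, ?_, rfl⟩
  have hy' : p ^ n • y = 0 := hy
  rw [pow_succ', mul_smul, hy', smul_zero]

end Split

/-- The body of `S33.OrdFilStatement` at one pair `(p, M')`. -/
def OrdFilFor (p M' : ℕ) [NeZero M'] [NeZero (p * M')] : Prop :=
  ∃ (α β : ModularCurve.JZero (p * M') →+ ModularCurve.JZero M'),
    (∀ (σ : Fermat.Agent.S31.GQ) (x : ModularCurve.JZero (p * M')), α (σ • x) = σ • α x) ∧
    (∀ (σ : Fermat.Agent.S31.GQ) (x : ModularCurve.JZero (p * M')), β (σ • x) = σ • β x) ∧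
    ∀ A : ValuationSubring Fermat.Agent.S31.Qb, A.LiesOverPrime p →
      ∃ 𝒮 : Set (ModularCurve.JZero (p * M')),
        (∀ x : ModularCurve.JZero (p * M'),
          Fermat.Agent.S33.InSPlus (A.inertiaSubgroupIn ℚ) p x → x ∈ 𝒮) ∧
        (∀ x ∈ 𝒮, p • x = 0 → α x = 0 → β x = 0 →
          ∀ σ ∈ A.inertiaSubgroupIn ℚ, ∀ c : ℕ,
            (∀ ζ : Fermat.Agent.S31.Qb, ζ ^ p = 1 → σ ζ = ζ ^ c) → σ • x = c • x)

/-- `S33.OrdFilStatement` is `OrdFilFor` at all `(p, M')`, `p` odd, `p ∤ M'`. -/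
theorem ordFilStatement_iff :
    Fermat.Agent.S33.OrdFilStatement ↔
      ∀ (p M' : ℕ) [NeZero M'] [NeZero (p * M')], p.Prime → p ≠ 2 → ¬ p ∣ M' →
        OrdFilFor p M' :=
  Iff.rfl

/-- **NEW at one pair `(p, M')`** from (S2) at `(p, M')` for `𝒮 = splitPart` (no hypothesis on
`p`, `M'` other than `p` prime). -/
theorem ordFilFor_of_s2For (p M' : ℕ) [NeZero M'] [NeZero p] [NeZero (p * M')] (hp : p.Prime)
    (h2 : ∀ A : ValuationSubring Kbar, A.LiesOverPrime p →
      Fermat.Agent.Ribet.H944.Wall.S2For p M' A (splitPart p M' A)) :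
    OrdFilFor p M' := by
  refine ⟨Fermat.Agent.Ribet.H801.alphaL p M', Fermat.Agent.Ribet.H801.betaL p M',
    Fermat.Agent.Ribet.H801.alphaL_smul p M', Fermat.Agent.Ribet.H801.betaL_smul p M',
    fun A hA => ⟨(splitPart p M' A : Set (JZero (p * M'))), ?_, ?_⟩⟩
  · intro x hx
    exact inSPlus_mem_splitPart p M' A hp hA x hx
  · intro x hx hpx hαx hβx σ hσ c hc
    exact h2 A hA x hx ⟨hpx, hαx, hβx⟩ σ hσ c hc

/-- **NEW** (`S33/Spec2.lean`) from (S2) of the RIBET wall-`p` board: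
W-DEG is `Ribet.H801.alphaL`, `betaL`, the set is `𝒮 = Ribet.H884.splitPart`, (S1⁺) is
`inSPlus_mem_splitPart`. -/
theorem ordFil_of_s2 (h2 : Fermat.Agent.Ribet.H884.S2Statement) :
    Fermat.Agent.S33.OrdFilStatement := by
  intro p M' _ _ hp hp2 hpM
  haveI : NeZero p := ⟨hp.ne_zero⟩
  exact ordFilFor_of_s2For p M' hp (fun A hA => h2 p M' hp hp2 hpM A hA)

end Fermat.Agent.S33.H855
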